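import Mathlib.RingTheory.MvPolynomial.Symmetric.NewtonIdentities
import Mathlib.Algebra.Algebra.Subalgebra.Operations
import Mathlib.Algebra.CharZero.Infinite
import Mathlib.Tactic

/-!
# Noether's degree bound

In characteristic zero the powers of the elements of a generating subspace span the algebra, and
the power sums over an orbit are generated by those with exponent at most its size.
-/

set_option autoImplicit false

noncomputable section

open Polynomial

namespace FA.NoetherBound

variable {K A : Type*} [Field K] [CharZero K] [CommRing A] [Algebra K A]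

/-- The span of the powers of the elements of `V`. -/
def powersSpan (V : Submodule K A) : Submodule K A :=
  Submodule.span K {x | ∃ v ∈ V, ∃ k : ℕ, x = v ^ k}

theorem pow_mul_mem (V : Submodule K A) {v u : A} (hv : v ∈ V) (hu : u ∈ V) (k : ℕ) :
    v ^ k * u ∈ powersSpan V := by
  rw [← Submodule.Quotient.mk_eq_zero, ← Module.forall_dual_apply_eq_zero_iff K]
  intro φ
  set ψ : A →ₗ[K] K := φ.comp (powersSpan V).mkQ with hψdef
  set P : K[X] := ∑ j ∈ Finset.range (k + 2),
    C (((k + 1).choose j : K) * ψ (v ^ (k + 1 - j) * u ^ j)) * Polynomial.X ^ j with hP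
  have h0 : P = 0 := Polynomial.funext fun s => by
    have hmem : (s • u + v) ^ (k + 1) ∈ powersSpan V :=
      Submodule.subset_span ⟨_, add_mem (V.smul_mem s hu) hv, k + 1, rfl⟩
    have hz : ψ ((s • u + v) ^ (k + 1)) = 0 := by
      simp [hψdef, (Submodule.Quotient.mk_eq_zero _).2 hmem]
    rw [eval_zero, ← hz, hP, eval_finsetSum, add_pow, map_sum]
    refine Finset.sum_congr rfl fun j _ => ?_
    rw [show (s • u) ^ j * v ^ (k + 1 - j) * ((k + 1).choose j : A) =
      (s ^ j * ((k + 1).choose j : K)) • (v ^ (k + 1 - j) * u ^ j) by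
        simp only [Algebra.smul_def, map_mul, map_pow, map_natCast]; ring, map_smul]
    simp only [eval_mul, eval_C, eval_pow, eval_X, smul_eq_mul]
    ring
  have h1 := congrArg (fun p : K[X] => p.coeff 1) h0
  simp only [hP, finsetSum_coeff, coeff_C_mul_X_pow, coeff_zero] at h1
  rw [Finset.sum_eq_single 1 (fun j _ hj => if_neg hj.symm)
    (fun h => absurd (Finset.mem_range.2 (by omega)) h), if_pos rfl, Nat.choose_one_right,
    mul_eq_zero] at h1
  have := h1.resolve_left (Nat.cast_ne_zero.2 k.succ_ne_zero)
  simpa [hψdef, pow_one] using this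

theorem mem_powersSpan_of_adjoin {V : Submodule K A} (hV : Algebra.adjoin K (V : Set A) = ⊤)
    (x : A) : x ∈ powersSpan V := by
  have hu : ∀ u ∈ V, powersSpan V ≤ (powersSpan V).comap (LinearMap.mulRight K u) := fun u hu =>
    Submodule.span_le.2 fun y ⟨v, hv, k, hy⟩ => by
      rw [hy]; exact pow_mul_mem V hv hu k
  have hpow : ∀ (u : A), u ∈ V → ∀ (j : ℕ), ∀ y ∈ powersSpan V, y * u ^ j ∈ powersSpan V := by
    intro u hu' j
    induction j with
    | zero => simp
    | succ j ih => exact fun y hy => by rw [pow_succ, ← mul_assoc]; exact hu u hu' (ih y hy)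
  have hmul : ∀ y ∈ powersSpan V, ∀ z ∈ powersSpan V, y * z ∈ powersSpan V := fun y hy z hz => by
    have : powersSpan V ≤ (powersSpan V).comap (LinearMap.mulLeft K y) :=
      Submodule.span_le.2 fun z ⟨u, hu', j, hz⟩ => by rw [hz]; exact hpow u hu' j y hy
    exact this hz
  let S : Subalgebra K A := (powersSpan V).toSubalgebra
    (Submodule.subset_span ⟨0, V.zero_mem, 0, (pow_zero _).symm⟩) fun y z hy hz => hmul y hy z hz
  exact (Algebra.adjoin_le (S := S) fun v hv =>
    Submodule.subset_span ⟨v, hv, 1, (pow_one v).symm⟩) (hV ▸ Algebra.mem_top : x ∈ _)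

variable {G : Type*} [Group G] [Fintype G] [MulSemiringAction G A] [SMulCommClass G K A]

/-- The orbit sums of the powers up to the order of the group. -/
def orbitSums (K G : Type*) [Field K] {A : Type*} [CommRing A] [Algebra K A] [Group G] [Fintype G]
    [MulSemiringAction G A] (V : Submodule K A) : Set A :=
  {x | ∃ v ∈ V, ∃ j, 1 ≤ j ∧ j ≤ Fintype.card G ∧ x = ∑ g : G, g • v ^ j}

omit [Group G] [MulSemiringAction G A] [SMulCommClass G K A] in
theorem powerSum_mem (B : Subalgebra K A) (y : G → A)
    (hB : ∀ j ≤ Fintype.card G, ∑ g, y g ^ j ∈ B) (k : ℕ) : ∑ g, y g ^ k ∈ B := by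
  set ev := MvPolynomial.aeval (R := K) y
  have hp : ∀ j, ev (MvPolynomial.psum G K j) = ∑ g, y g ^ j := fun j => by
    simp [ev, MvPolynomial.psum]
  have hs : ∀ n : ℕ, ((-1 : A)) ^ n ∈ B := fun n => pow_mem (neg_mem (one_mem B)) n
  have he : ∀ j, ev (MvPolynomial.esymm G K j) ∈ B := by
    intro j
    induction j using Nat.strong_induction_on with
    | _ j ih =>
      rcases lt_or_ge (Fintype.card G) j with hj | hj
      · rw [MvPolynomial.esymm, Finset.powersetCard_eq_empty.2 (by simpa using hj),
          Finset.sum_empty, map_zero]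
        exact zero_mem B
      rcases eq_or_ne j 0 with rfl | hj0
      · simp [MvPolynomial.esymm_zero]
      have := congrArg ev (MvPolynomial.mul_esymm_eq_sum G K j)
      simp only [map_mul, map_pow, map_neg, map_one, map_sum, map_natCast, hp] at this
      have hmem : (j : A) * ev (MvPolynomial.esymm G K j) ∈ B := by
        rw [this]
        refine mul_mem (hs _) (sum_mem fun a ha => ?_)
        have ha' := Finset.mem_filter.1 ha
        exact mul_mem (mul_mem (hs _) (ih _ ha'.2))
          (hB _ (by have := Finset.HasAntidiagonal.mem_antidiagonal.1 ha'.1; omega))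
      have h2 := B.smul_mem hmem (j : K)⁻¹
      rwa [← map_natCast (algebraMap K A) j, ← Algebra.smul_def, inv_smul_smul₀
        (Nat.cast_ne_zero.2 hj0 : (j : K) ≠ 0)] at h2
  induction k using Nat.strong_induction_on with
  | _ k ih =>
    rcases le_or_gt k (Fintype.card G) with hk | hk
    · exact hB k hk
    have := congrArg ev (MvPolynomial.psum_eq_mul_esymm_sub_sum G K k (by omega))
    simp only [map_sub, map_mul, map_pow, map_neg, map_one, map_sum, map_natCast, hp] at this
    rw [this]
    refine sub_mem (mul_mem (mul_mem (hs _) (natCast_mem B k)) (he k)) (sum_mem fun a ha => ?_)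
    have ha' := Finset.mem_filter.1 ha
    have hk' := Finset.HasAntidiagonal.mem_antidiagonal.1 ha'.1
    exact mul_mem (mul_mem (hs _) (he _)) (ih _ (by have := ha'.2.1; omega))

/-- **Noether's bound.** -/
theorem invariants_eq_adjoin {V : Submodule K A} (hV : Algebra.adjoin K (V : Set A) = ⊤) :
    FixedPoints.subalgebra K A G = Algebra.adjoin K (orbitSums K G V) := by
  refine le_antisymm (fun x hx => ?_) (Algebra.adjoin_le ?_)
  · set B := Algebra.adjoin K (orbitSums K G V)
    have hgen : ∀ v ∈ V, ∀ j ≤ Fintype.card G, ∑ g : G, (g • v) ^ j ∈ B := by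
      intro v hv j hj
      rcases eq_or_ne j 0 with rfl | hj0
      · simp
      · exact Algebra.subset_adjoin
          ⟨v, hv, j, Nat.one_le_iff_ne_zero.2 hj0, hj, by simp [smul_pow']⟩
    have hsum : powersSpan V ≤ B.toSubmodule.comap
        (∑ g : G, DistribSMul.toLinearMap K A g) := by
      refine Submodule.span_le.2 fun z ⟨v, hv, k, hz⟩ => ?_
      simp only [hz, SetLike.mem_coe, Submodule.mem_comap, LinearMap.sum_apply,
        DistribSMul.toLinearMap_apply, smul_pow', Subalgebra.mem_toSubmodule]
      exact powerSum_mem B _ (hgen v hv) k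
    have := B.smul_mem (hsum (mem_powersSpan_of_adjoin hV x)) (Fintype.card G : K)⁻¹
    simp only [LinearMap.sum_apply, DistribSMul.toLinearMap_apply] at this
    rw [Finset.sum_congr rfl (fun g _ => hx g), Finset.sum_const, Finset.card_univ,
      ← Nat.cast_smul_eq_nsmul K, inv_smul_smul₀
      (Nat.cast_ne_zero.2 Fintype.card_ne_zero : (Fintype.card G : K) ≠ 0)] at this
    exact this
  · rintro _ ⟨v, -, j, -, -, rfl⟩ h
    rw [Finset.smul_sum]
    exact Fintype.sum_equiv (Equiv.mulLeft h) _ _ fun g => by simp [mul_smul]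

end FA.NoetherBound
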